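/-
Row S27, block GRP: the formal extension lemma (helper687).

A group law on the AFFINE points of `f : J ⟶ Spec R` (natural in the algebra) extends uniquely
to a `RelativeGroupLaw R f`.  Mathlib + Prelude + `S25/Defs` (`specStr`, `specHomOver`) only.
-/
import Mathlib
import Fermat.Agent.S25.Defs

set_option autoImplicit false
universe u
open CategoryTheory CategoryTheory.Limits AlgebraicGeometry NeronModelInfra GoodReductionJacobian

namespace Fermat.Agent.S27.H687

open Fermat.Agent.S25

noncomputable section

/-! ## Morphisms are determined by, and glue from, their restrictions to affine schemes -/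

section Glue

variable {T J : Scheme.{u}}

/-- Two morphisms which agree on all affine test schemes are equal. -/
theorem hom_ext_affine (f₁ f₂ : T ⟶ J)
    (h : ∀ (A : CommRingCat.{u}) (a : Spec A ⟶ T), a ≫ f₁ = a ≫ f₂) : f₁ = f₂ :=
  T.affineOpenCover.openCover.hom_ext f₁ f₂ fun _ => h _ _

/-- Naturality for arbitrary morphisms between spectra. -/
theorem natural_of_spec (h : ∀ (A : CommRingCat.{u}) (_ : Spec A ⟶ T), Spec A ⟶ J)
    (hh : ∀ (A A' : CommRingCat.{u}) (φ : A ⟶ A') (a : Spec A ⟶ T),
      Spec.map φ ≫ h A a = h A' (Spec.map φ ≫ a))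
    {A A' : CommRingCat.{u}} (b : Spec A' ⟶ Spec A) (a : Spec A ⟶ T) :
    b ≫ h A a = h A' (b ≫ a) := by
  have := hh A A' (Spec.preimage b) a
  rwa [Spec.map_preimage] at this

/-- A compatible family of morphisms from all affine test schemes glues to a unique morphism. -/
theorem exists_unique_of_affine (h : ∀ (A : CommRingCat.{u}) (_ : Spec A ⟶ T), Spec A ⟶ J)
    (hh : ∀ (A A' : CommRingCat.{u}) (φ : A ⟶ A') (a : Spec A ⟶ T),
      Spec.map φ ≫ h A a = h A' (Spec.map φ ≫ a)) :
    ∃! H : T ⟶ J, ∀ (A : CommRingCat.{u}) (a : Spec A ⟶ T), a ≫ H = h A a := by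
  let 𝒰 := T.affineOpenCover
  have hf : ∀ i j : 𝒰.openCover.I₀,
      pullback.fst (𝒰.openCover.f i) (𝒰.openCover.f j) ≫ h _ (𝒰.f i) =
        pullback.snd (𝒰.openCover.f i) (𝒰.openCover.f j) ≫ h _ (𝒰.f j) := by
    intro i j
    refine hom_ext_affine _ _ fun B w => ?_
    rw [← Category.assoc, ← Category.assoc]
    erw [natural_of_spec h hh (w ≫ pullback.fst (𝒰.openCover.f i) (𝒰.openCover.f j)) (𝒰.f i),
      natural_of_spec h hh (w ≫ pullback.snd (𝒰.openCover.f i) (𝒰.openCover.f j)) (𝒰.f j)]
    congr 1
    rw [Category.assoc, Category.assoc]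
    congr 1
    exact pullback.condition
  let H : T ⟶ J := 𝒰.openCover.glueMorphisms (fun i => h _ (𝒰.f i)) hf
  have hH : ∀ i, 𝒰.f i ≫ H = h _ (𝒰.f i) := fun i =>
    𝒰.openCover.ι_glueMorphisms (fun i => h _ (𝒰.f i)) hf i
  refine ⟨H, fun A a => ?_, fun H' hH' => ?_⟩
  · refine Scheme.hom_ext_of_forall _ _ fun x => ?_
    obtain ⟨i, y, hy⟩ := 𝒰.openCover.exists_eq (a x)
    refine ⟨a ⁻¹ᵁ (𝒰.f i).opensRange, ⟨y, hy⟩, ?_⟩
    have hr : Set.range ((a ⁻¹ᵁ (𝒰.f i).opensRange).ι ≫ a) ⊆ Set.range (𝒰.f i) := by
      rintro _ ⟨z, rfl⟩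
      exact z.2
    let l : (a ⁻¹ᵁ (𝒰.f i).opensRange).toScheme ⟶ Spec (𝒰.X i) :=
      IsOpenImmersion.lift (𝒰.f i) ((a ⁻¹ᵁ (𝒰.f i).opensRange).ι ≫ a) hr
    have hl : l ≫ 𝒰.f i = (a ⁻¹ᵁ (𝒰.f i).opensRange).ι ≫ a :=
      IsOpenImmersion.lift_fac _ _ hr
    refine hom_ext_affine _ _ fun B w => ?_
    calc w ≫ (a ⁻¹ᵁ (𝒰.f i).opensRange).ι ≫ a ≫ H
        = (w ≫ l) ≫ 𝒰.f i ≫ H := by
          rw [Category.assoc, ← Category.assoc l, hl, Category.assoc]
      _ = h B ((w ≫ l) ≫ 𝒰.f i) := by rw [hH, natural_of_spec h hh]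
      _ = h B ((w ≫ (a ⁻¹ᵁ (𝒰.f i).opensRange).ι) ≫ a) := by
          rw [Category.assoc, hl, Category.assoc]
      _ = w ≫ (a ⁻¹ᵁ (𝒰.f i).opensRange).ι ≫ h A a := by
          rw [← natural_of_spec h hh, Category.assoc]
  · refine 𝒰.openCover.hom_ext _ _ fun i => ?_
    exact (hH' _ _).trans (hH i).symm

end Glue

/-! ## The same over a base ring, in the language of `SchemeHomOver (specStr R B) _` -/

section Over

variable {R : Type u} [CommRing R]

/-- The `R`-algebra structure on `B` attached to a morphism `Spec B ⟶ Spec R`. -/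
abbrev algOf {B : CommRingCat.{u}} (s : Spec B ⟶ Spec (CommRingCat.of R)) : Algebra R B :=
  (Spec.preimage s).hom.toAlgebra

theorem specStr_algOf {B : CommRingCat.{u}} (s : Spec B ⟶ Spec (CommRingCat.of R)) :
    @specStr R _ B _ (algOf s) = s :=
  Spec.map_preimage s

theorem algOf_specStr (B : Type u) [CommRing B] [I : Algebra R B] :
    algOf (B := CommRingCat.of B) (specStr R B) = I := by
  refine Algebra.algebra_ext _ _ fun r => ?_
  change (Spec.preimage (Spec.map (CommRingCat.ofHom (algebraMap R B)))).hom r = _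
  rw [Spec.preimage_map]
  rfl

variable {T J : Scheme.{u}} {t : T ⟶ Spec (CommRingCat.of R)} {f : J ⟶ Spec (CommRingCat.of R)}

/-- Restriction of a `T`-valued point to an affine point of `T`. -/
abbrev res {B : Type u} [CommRing B] [Algebra R B] (a : SchemeHomOver (specStr R B) t)
    (x : SchemeHomOver t f) : SchemeHomOver (specStr R B) f :=
  schemeHomOverComp a.1 a.2 x

/-- Base change of an affine point along an algebra homomorphism. -/
abbrev bc {S : Scheme.{u}} {s : S ⟶ Spec (CommRingCat.of R)} {B B' : Type u} [CommRing B]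
    [Algebra R B] [CommRing B'] [Algebra R B'] (φ : B →ₐ[R] B')
    (x : SchemeHomOver (specStr R B) s) : SchemeHomOver (specStr R B') s :=
  schemeHomOverComp (specHomOver R φ).1 (specHomOver R φ).2 x

theorem res_bc {B B' : Type u} [CommRing B] [Algebra R B] [CommRing B'] [Algebra R B']
    (φ : B →ₐ[R] B') (a : SchemeHomOver (specStr R B) t) (x : SchemeHomOver t f) :
    bc φ (res a x) = res (bc φ a) x :=
  Subtype.ext (Category.assoc _ _ _).symm

/-- The affine point of `T` attached to a morphism `Spec B ⟶ T`. -/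
abbrev ptOf (t : T ⟶ Spec (CommRingCat.of R)) {B : CommRingCat.{u}} (a : Spec B ⟶ T) :
    @SchemeHomOver _ _ _ (@specStr R _ B _ (algOf (a ≫ t))) t :=
  ⟨a, (specStr_algOf (a ≫ t)).symm⟩

/-- Two points which agree on all affine points are equal. -/
theorem pt_ext (x y : SchemeHomOver t f)
    (h : ∀ (B : Type u) [CommRing B] [Algebra R B] (a : SchemeHomOver (specStr R B) t),
      res a x = res a y) : x = y := by
  refine Subtype.ext (hom_ext_affine _ _ fun B a => ?_)
  letI := algOf (R := R) (a ≫ t)
  exact congrArg Subtype.val (h B (ptOf t a))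

theorem congr_of_algebra_eq {S : Scheme.{u}} {s : S ⟶ Spec (CommRingCat.of R)}
    (h : ∀ (B : Type u) [CommRing B] [Algebra R B],
      SchemeHomOver (specStr R B) t → SchemeHomOver (specStr R B) s)
    (B : Type u) [CommRing B] (I I' : Algebra R B) (e : I = I')
    (a : @SchemeHomOver _ _ _ (@specStr R _ B _ I) t)
    (a' : @SchemeHomOver _ _ _ (@specStr R _ B _ I') t) (ha : a.1 = a'.1) :
    (@h B _ I a).1 = (@h B _ I' a').1 := by
  subst e
  have : a = a' := Subtype.ext ha
  rw [this]

/-- A family of affine points of `f`, indexed by the affine points of `t` and natural in the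
algebra, comes from a unique `T`-valued point of `f`. -/
theorem exists_unique_point
    (h : ∀ (B : Type u) [CommRing B] [Algebra R B],
      SchemeHomOver (specStr R B) t → SchemeHomOver (specStr R B) f)
    (hh : ∀ (B B' : Type u) [CommRing B] [Algebra R B] [CommRing B'] [Algebra R B']
      (φ : B →ₐ[R] B') (a : SchemeHomOver (specStr R B) t), bc φ (h B a) = h B' (bc φ a)) :
    ∃! H : SchemeHomOver t f,
      ∀ (B : Type u) [CommRing B] [Algebra R B] (a : SchemeHomOver (specStr R B) t),
        res a H = h B a := by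
  let h₀ : ∀ (A : CommRingCat.{u}) (_ : Spec A ⟶ T), Spec A ⟶ J := fun A a =>
    (@h A _ (algOf (a ≫ t)) (ptOf t a)).1
  have hh₀ : ∀ (A A' : CommRingCat.{u}) (φ : A ⟶ A') (a : Spec A ⟶ T),
      Spec.map φ ≫ h₀ A a = h₀ A' (Spec.map φ ≫ a) := by
    intro A A' φ a
    letI I : Algebra R A := algOf (a ≫ t)
    letI I' : Algebra R A' := algOf ((Spec.map φ ≫ a) ≫ t)
    have hc : ∀ r : R, φ.hom (algebraMap R A r) = algebraMap R A' r := by
      intro r
      have e : Spec.preimage (a ≫ t) ≫ φ = Spec.preimage ((Spec.map φ ≫ a) ≫ t) := by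
        apply Spec.map_injective
        rw [Spec.map_comp, Spec.map_preimage, Spec.map_preimage, Category.assoc]
      exact congrArg (fun ψ : CommRingCat.of R ⟶ A' => ψ.hom r) e
    let φ' : A →ₐ[R] A' := { φ.hom with commutes' := hc }
    have key := congrArg Subtype.val (hh A A' φ' (ptOf t a))
    exact key.trans (congrArg (fun z => (@h A' _ I' z).1) (Subtype.ext rfl))
  obtain ⟨H₀, hH₀, huniq⟩ := exists_unique_of_affine h₀ hh₀
  have hover : H₀ ≫ f = t := by
    refine hom_ext_affine _ _ fun A a => ?_
    rw [← Category.assoc, hH₀]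
    exact (@h A _ (algOf (a ≫ t)) (ptOf t a)).2.trans (specStr_algOf (a ≫ t))
  have hprop : ∀ (B : Type u) [CommRing B] [Algebra R B] (a : SchemeHomOver (specStr R B) t),
      res a (⟨H₀, hover⟩ : SchemeHomOver t f) = h B a := by
    intro B _ I a
    refine Subtype.ext ?_
    change a.1 ≫ H₀ = (h B a).1
    rw [hH₀ (CommRingCat.of B) a.1]
    refine congr_of_algebra_eq h B _ I ?_ _ _ rfl
    have : a.1 ≫ t = specStr R B := a.2
    rw [this]
    exact algOf_specStr B
  refine ⟨⟨H₀, hover⟩, hprop, fun H' hH' => ?_⟩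
  refine Subtype.ext (huniq H'.1 fun A a => ?_)
  letI := algOf (R := R) (a ≫ t)
  exact congrArg Subtype.val (hH' A (ptOf t a))

end Over

/-! ## Group laws on affine points -/

/-- A group law on the affine points of `f : J ⟶ Spec R`, natural in the algebra. -/
structure AffineLaw (R : Type u) [CommRing R] {J : Scheme.{u}}
    (f : J ⟶ Spec (CommRingCat.of R)) where
  /-- multiplication -/
  mul : ∀ (A : Type u) [CommRing A] [Algebra R A],
    SchemeHomOver (specStr R A) f → SchemeHomOver (specStr R A) f → SchemeHomOver (specStr R A) f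
  /-- unit -/
  one : ∀ (A : Type u) [CommRing A] [Algebra R A], SchemeHomOver (specStr R A) f
  /-- inverse -/
  inv : ∀ (A : Type u) [CommRing A] [Algebra R A],
    SchemeHomOver (specStr R A) f → SchemeHomOver (specStr R A) f
  mul_assoc : ∀ (A : Type u) [CommRing A] [Algebra R A] (x y z : SchemeHomOver (specStr R A) f),
    mul A (mul A x y) z = mul A x (mul A y z)
  one_mul : ∀ (A : Type u) [CommRing A] [Algebra R A] (x : SchemeHomOver (specStr R A) f),
    mul A (one A) x = x
  mul_one : ∀ (A : Type u) [CommRing A] [Algebra R A] (x : SchemeHomOver (specStr R A) f),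
    mul A x (one A) = x
  inv_mul_cancel : ∀ (A : Type u) [CommRing A] [Algebra R A]
    (x : SchemeHomOver (specStr R A) f), mul A (inv A x) x = one A
  mul_natural : ∀ (A A' : Type u) [CommRing A] [Algebra R A] [CommRing A'] [Algebra R A']
    (φ : A →ₐ[R] A') (x y : SchemeHomOver (specStr R A) f),
    bc φ (mul A x y) = mul A' (bc φ x) (bc φ y)

namespace AffineLaw

variable {R : Type u} [CommRing R] {J : Scheme.{u}} {f : J ⟶ Spec (CommRingCat.of R)}
  (L : AffineLaw R f)

/-- The group of `A`-valued points. -/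
@[reducible] def group (A : Type u) [CommRing A] [Algebra R A] :
    Group (SchemeHomOver (specStr R A) f) where
  mul := L.mul A
  one := L.one A
  inv := L.inv A
  mul_assoc := L.mul_assoc A
  one_mul := L.one_mul A
  mul_one := L.mul_one A
  inv_mul_cancel := L.inv_mul_cancel A

/-- Base change is a group homomorphism. -/
def bcHom {A A' : Type u} [CommRing A] [Algebra R A] [CommRing A'] [Algebra R A']
    (φ : A →ₐ[R] A') :
    letI := L.group A
    letI := L.group A'
    SchemeHomOver (specStr R A) f →* SchemeHomOver (specStr R A') f :=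
  letI := L.group A
  letI := L.group A'
  MonoidHom.mk' (bc φ) (L.mul_natural A A' φ)

theorem one_natural {A A' : Type u} [CommRing A] [Algebra R A] [CommRing A'] [Algebra R A']
    (φ : A →ₐ[R] A') : bc φ (L.one A) = L.one A' :=
  letI := L.group A
  letI := L.group A'
  (L.bcHom φ).map_one

theorem inv_natural {A A' : Type u} [CommRing A] [Algebra R A] [CommRing A'] [Algebra R A']
    (φ : A →ₐ[R] A') (x : SchemeHomOver (specStr R A) f) :
    bc φ (L.inv A x) = L.inv A' (bc φ x) :=
  letI := L.group A
  letI := L.group A'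
  (L.bcHom φ).map_inv x

variable {T : Scheme.{u}} (t : T ⟶ Spec (CommRingCat.of R))

theorem existsUnique_mul (x y : SchemeHomOver t f) :
    ∃! H : SchemeHomOver t f,
      ∀ (B : Type u) [CommRing B] [Algebra R B] (a : SchemeHomOver (specStr R B) t),
        res a H = L.mul B (res a x) (res a y) :=
  exists_unique_point (fun B _ _ a => L.mul B (res a x) (res a y)) fun B B' _ _ _ _ φ a => by
    rw [L.mul_natural, res_bc, res_bc]

theorem existsUnique_one :
    ∃! H : SchemeHomOver t f,
      ∀ (B : Type u) [CommRing B] [Algebra R B] (a : SchemeHomOver (specStr R B) t),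
        res a H = L.one B :=
  exists_unique_point (fun B _ _ _ => L.one B) fun B B' _ _ _ _ φ a => L.one_natural φ

theorem existsUnique_inv (x : SchemeHomOver t f) :
    ∃! H : SchemeHomOver t f,
      ∀ (B : Type u) [CommRing B] [Algebra R B] (a : SchemeHomOver (specStr R B) t),
        res a H = L.inv B (res a x) :=
  exists_unique_point (fun B _ _ a => L.inv B (res a x)) fun B B' _ _ _ _ φ a => by
    rw [L.inv_natural, res_bc]

/-- The extended multiplication. -/
def mulT (x y : SchemeHomOver t f) : SchemeHomOver t f := (L.existsUnique_mul t x y).exists.choose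

/-- The extended unit. -/
def oneT : SchemeHomOver t f := (L.existsUnique_one t).exists.choose

/-- The extended inverse. -/
def invT (x : SchemeHomOver t f) : SchemeHomOver t f := (L.existsUnique_inv t x).exists.choose

variable {t}

theorem res_mulT (x y : SchemeHomOver t f) {B : Type u} [CommRing B] [Algebra R B]
    (a : SchemeHomOver (specStr R B) t) :
    res a (L.mulT t x y) = L.mul B (res a x) (res a y) :=
  (L.existsUnique_mul t x y).exists.choose_spec B a

theorem res_oneT {B : Type u} [CommRing B] [Algebra R B] (a : SchemeHomOver (specStr R B) t) :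
    res a (L.oneT t) = L.one B :=
  (L.existsUnique_one t).exists.choose_spec B a

theorem res_invT (x : SchemeHomOver t f) {B : Type u} [CommRing B] [Algebra R B]
    (a : SchemeHomOver (specStr R B) t) :
    res a (L.invT t x) = L.inv B (res a x) :=
  (L.existsUnique_inv t x).exists.choose_spec B a

/-- **The extension lemma**: a group law on affine points extends to a relative group law. -/
def extend : RelativeGroupLaw R f where
  mul t := L.mulT t
  one t := L.oneT t
  inv t := L.invT t
  mul_assoc t x y z := pt_ext _ _ fun B _ _ a => by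
    rw [res_mulT, res_mulT, res_mulT, res_mulT, L.mul_assoc]
  one_mul t x := pt_ext _ _ fun B _ _ a => by rw [res_mulT, res_oneT, L.one_mul]
  mul_one t x := pt_ext _ _ fun B _ _ a => by rw [res_mulT, res_oneT, L.mul_one]
  inv_mul_cancel t x := pt_ext _ _ fun B _ _ a => by
    rw [res_mulT, res_invT, res_oneT, L.inv_mul_cancel]
  mul_natural t t' ψ hψ x y := pt_ext _ _ fun B _ _ a => by
    have e : ∀ z : SchemeHomOver t f, res a (schemeHomOverComp ψ hψ z) =
        res (schemeHomOverComp (f := t) a.1 a.2 ⟨ψ, hψ⟩) z := fun z =>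
      Subtype.ext (Category.assoc _ _ _).symm
    rw [e, res_mulT, res_mulT, e, e]

/-- The identity affine point of `Spec A`. -/
abbrev idPt (A : Type u) [CommRing A] [Algebra R A] :
    SchemeHomOver (specStr R A) (specStr R A) :=
  ⟨𝟙 _, Category.id_comp _⟩

theorem res_idPt {A : Type u} [CommRing A] [Algebra R A] (x : SchemeHomOver (specStr R A) f) :
    res (idPt A) x = x :=
  Subtype.ext (Category.id_comp _)

@[simp] theorem extend_mul_affine (A : Type u) [CommRing A] [Algebra R A]
    (x y : SchemeHomOver (specStr R A) f) : L.extend.mul (specStr R A) x y = L.mul A x y := by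
  have := L.res_mulT x y (idPt A)
  rwa [res_idPt, res_idPt, res_idPt] at this

@[simp] theorem extend_one_affine (A : Type u) [CommRing A] [Algebra R A] :
    L.extend.one (specStr R A) = L.one A := by
  have := L.res_oneT (t := specStr R A) (idPt A)
  rwa [res_idPt] at this

@[simp] theorem extend_inv_affine (A : Type u) [CommRing A] [Algebra R A]
    (x : SchemeHomOver (specStr R A) f) : L.extend.inv (specStr R A) x = L.inv A x := by
  have := L.res_invT x (idPt A)
  rwa [res_idPt, res_idPt] at this

/-- The extended law restricted to an affine point. -/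
theorem res_extend_mul (x y : SchemeHomOver t f) {B : Type u} [CommRing B] [Algebra R B]
    (a : SchemeHomOver (specStr R B) t) :
    res a (L.extend.mul t x y) = L.mul B (res a x) (res a y) :=
  L.res_mulT x y a

theorem extend_isCommutative
    (hc : ∀ (A : Type u) [CommRing A] [Algebra R A] (x y : SchemeHomOver (specStr R A) f),
      L.mul A x y = L.mul A y x) : L.extend.IsCommutative := fun t x y =>
  pt_ext _ _ fun B _ _ a => by
    change res a (L.mulT t x y) = res a (L.mulT t y x)
    rw [res_mulT, res_mulT, hc]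

end AffineLaw

/-- **Extension lemma, existence form.** -/
theorem exists_relativeGroupLaw_of_affineLaw {R : Type u} [CommRing R] {J : Scheme.{u}}
    {f : J ⟶ Spec (CommRingCat.of R)} (L : AffineLaw R f) :
    ∃ G : RelativeGroupLaw R f,
      (∀ (A : Type u) [CommRing A] [Algebra R A] (x y : SchemeHomOver (specStr R A) f),
        G.mul (specStr R A) x y = L.mul A x y) ∧
      ((∀ (A : Type u) [CommRing A] [Algebra R A] (x y : SchemeHomOver (specStr R A) f),
        L.mul A x y = L.mul A y x) → G.IsCommutative) :=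
  ⟨L.extend, L.extend_mul_affine, L.extend_isCommutative⟩

end

end Fermat.Agent.S27.H687
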